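import Fermat.Agent.X15.FiveThree
import Fermat.Prelude.Def_FLTPrelim_ModularRep
import Fermat.Agent.Galois.Places
import Mathlib.FieldTheory.Galois.Infinite
import Mathlib.FieldTheory.IsAlgClosed.AlgebraicClosure

/-!
# A semistable curve has irreducible mod 3 or mod 5 representation
-/

set_option autoImplicit false

namespace Fermat.Agent.X15

open WeierstrassCurve WeierstrassCurve.Affine

local notation "Qbar" => AlgebraicClosure ℚ

lemma exists_rat_of_fixed {z : Qbar} (hz : ∀ σ : Qbar ≃ₐ[ℚ] Qbar, σ z = z) :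
    ∃ q : ℚ, algebraMap ℚ Qbar q = z := by
  have : IsGalois ℚ Qbar := Fermat.Agent.Galois.isGalois_qbar
  have := (InfiniteGalois.mem_bot_iff_fixed z).mpr hz
  exact IntermediateField.mem_bot.mp this

/-- If the representation on `n`-torsion is reducible, some point of order `n` spans a stable
line. -/
lemma exists_stable_line {E : WeierstrassCurve ℚ} {n : ℕ} [hn : Fact n.Prime]
    (hcard : Nat.card (Submodule.torsionBy ℤ (E.toAffine⁄Qbar).Point n) = n ^ 2)
    (h : ¬ Affine.Point.GaloisRepIsIrreducible (K := Qbar) ℚ E n) :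
    ∃ (x y : Qbar) (hxy : (E.toAffine⁄Qbar).toAffine.Nonsingular x y),
      (n : ℤ) • Affine.Point.some x y hxy = 0 ∧
      ∀ σ : Qbar ≃ₐ[ℚ] Qbar, ∃ k : ℕ, k < n ∧
        σ • (Affine.Point.some x y hxy : (E.toAffine⁄Qbar).Point) = k • Affine.Point.some x y hxy := by
  have hfin : Finite (Submodule.torsionBy ℤ (E.toAffine⁄Qbar).Point n) :=
    Nat.finite_of_card_ne_zero (by rw [hcard]; exact pow_ne_zero _ hn.out.pos.ne')
  have hnt : Nontrivial (Submodule.torsionBy ℤ (E.toAffine⁄Qbar).Point n) := by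
    rw [← Finite.one_lt_card_iff_nontrivial, hcard]
    exact Nat.one_lt_pow two_ne_zero hn.out.one_lt
  simp only [Affine.Point.GaloisRepIsIrreducible, not_and, not_forall, not_or] at h
  obtain ⟨N, hstab, hbot, htop⟩ := h hnt
  obtain ⟨⟨P, hP⟩, hPN, hP0⟩ := (Submodule.ne_bot_iff N).mp hbot
  have hP0' : P ≠ 0 := fun h0 => hP0 (Subtype.ext h0)
  have hspan : N = Submodule.span (ZMod n) {⟨P, hP⟩} := by
    symm
    have hle : Submodule.span (ZMod n) {⟨P, hP⟩} ≤ N := (Submodule.span_singleton_le_iff_mem _ _).mpr hPN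
    refine Submodule.eq_of_le_of_finrank_le hle ?_
    rw [finrank_span_singleton hP0]
    have htot : Module.finrank (ZMod n) (Submodule.torsionBy ℤ (E.toAffine⁄Qbar).Point n) = 2 := by
      have := Module.natCard_eq_pow_finrank (K := ZMod n)
        (V := Submodule.torsionBy ℤ (E.toAffine⁄Qbar).Point n)
      rw [hcard, Nat.card_zmod] at this
      exact (Nat.pow_right_injective hn.out.two_le this).symm
    exact Nat.lt_succ_iff.mp ((Submodule.finrank_lt htop).trans_eq htot)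
  cases P with
  | zero => exact absurd rfl hP0'
  | some x y hxy =>
    refine ⟨x, y, hxy, (Submodule.mem_torsionBy_iff _ _).mp hP, fun σ => ?_⟩
    have hσ := hstab σ _ hPN
    rw [hspan, Submodule.mem_span_singleton] at hσ
    obtain ⟨c, hc⟩ := hσ
    refine ⟨c.val, c.val_lt, ?_⟩
    rw [← ZMod.natCast_zmod_val c, Nat.cast_smul_eq_nsmul] at hc
    have := congrArg (Subtype.val) hc
    simp only [SetLike.val_smul_of_tower] at this
    exact this.symm

section

variable (E : WeierstrassCurve ℚ)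

lemma exists_rat_root_psi_three {x y : Qbar} {hxy : (E.toAffine⁄Qbar).toAffine.Nonsingular x y}
    (h3 : (3 : ℤ) • Affine.Point.some x y hxy = 0)
    (hσ : ∀ σ : Qbar ≃ₐ[ℚ] Qbar, ∃ k : ℕ, k < 3 ∧
        σ • (Affine.Point.some x y hxy : (E.toAffine⁄Qbar).Point) = k • Affine.Point.some x y hxy) :
    ∃ q : ℚ, 3 * q ^ 4 + E.b₂ * q ^ 3 + 3 * E.b₄ * q ^ 2 + 3 * E.b₆ * q + E.b₈ = 0 := by
  obtain ⟨q, hq⟩ : ∃ q : ℚ, algebraMap ℚ Qbar q = x := by
    refine exists_rat_of_fixed fun σ => ?_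
    obtain ⟨k, hk, he⟩ := hσ σ
    rw [Affine.Point.algEquiv_smul_def, Affine.Point.map_some] at he
    interval_cases k
    · simp at he
    · rw [one_smul, Affine.Point.some.injEq] at he; exact he.1
    · have h2 : (2 : ℕ) • Affine.Point.some x y hxy = -Affine.Point.some x y hxy :=
        eq_neg_of_add_eq_zero_left (by rw [← h3]; abel)
      rw [h2, Affine.Point.neg_some, Affine.Point.some.injEq] at he
      exact he.1
  refine ⟨q, (algebraMap ℚ Qbar).injective ?_⟩
  have := psi_three_eq_zero h3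
  rw [← hq] at this
  simpa [WeierstrassCurve.baseChange, WeierstrassCurve.map_b₂, WeierstrassCurve.map_b₄, WeierstrassCurve.map_b₆,
    WeierstrassCurve.map_b₈] using this

lemma exists_five_datum {x y : Qbar} {hxy : (E.toAffine⁄Qbar).toAffine.Nonsingular x y}
    (h5 : (5 : ℤ) • Affine.Point.some x y hxy = 0)
    (hσ : ∀ σ : Qbar ≃ₐ[ℚ] Qbar, ∃ k : ℕ, k < 5 ∧
        σ • (Affine.Point.some x y hxy : (E.toAffine⁄Qbar).Point) = k • Affine.Point.some x y hxy) :
    ∃ r δ : ℚ, δ ≠ 0 ∧ (shiftX r • E).b₂ ^ 2 * δ = (2 * (shiftX r • E).b₄ + δ) ^ 2 + 4 * δ ^ 2 ∧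
      4 * (shiftX r • E).b₆ = δ * (shiftX r • E).b₂ := by
  obtain ⟨v, y', hv, hdbl, hne, hrel⟩ := five_relations h5
  set P := Affine.Point.some x y hxy with hP
  set Q := Affine.Point.some v y' hv with hQ
  have hswap : ∀ σ : Qbar ≃ₐ[ℚ] Qbar, (σ x = x ∧ σ v = v) ∨ (σ x = v ∧ σ v = x) := by
    intro σ
    obtain ⟨k, hk, he⟩ := hσ σ
    have heQ : σ • (Q : (E.toAffine⁄Qbar).Point) = k • Q := by
      rw [← hdbl, smul_add, he, nsmul_add]
    have h5' : (4 : ℕ) • P = -P := eq_neg_of_add_eq_zero_left (by rw [← h5]; abel)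
    rw [hP, Affine.Point.algEquiv_smul_def, Affine.Point.map_some] at he
    rw [hQ, Affine.Point.algEquiv_smul_def, Affine.Point.map_some, ← hQ] at heQ
    rw [← hP] at he
    interval_cases k
    · simp at he
    · left
      rw [one_smul] at he heQ
      rw [hP, Affine.Point.some.injEq] at he
      rw [hQ, Affine.Point.some.injEq] at heQ
      exact ⟨he.1, heQ.1⟩
    · right
      rw [two_nsmul, hdbl, hQ, Affine.Point.some.injEq] at he
      have : (2 : ℕ) • Q = -P := by rw [← hdbl, ← h5']; abel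
      rw [this, hP, Affine.Point.neg_some, Affine.Point.some.injEq] at heQ
      exact ⟨he.1, heQ.1⟩
    · right
      have e1 : (3 : ℕ) • P = -Q := eq_neg_of_add_eq_zero_left (by rw [← hdbl, ← h5]; abel)
      have e2 : (3 : ℕ) • Q = P := by
        rw [← hdbl]
        calc (3 : ℕ) • (P + P) = (5 : ℤ) • P + P := by abel
        _ = P := by rw [h5, zero_add]
      rw [e1, hQ, Affine.Point.neg_some, Affine.Point.some.injEq] at he
      rw [e2, hP, Affine.Point.some.injEq] at heQ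
      exact ⟨he.1, heQ.1⟩
    · left
      rw [h5', hP, Affine.Point.neg_some, Affine.Point.some.injEq] at he
      have e2 : (4 : ℕ) • Q = -Q := by
        rw [← hdbl, nsmul_add, h5', neg_add]
      rw [e2, hQ, Affine.Point.neg_some, Affine.Point.some.injEq] at heQ
      exact ⟨he.1, heQ.1⟩
  obtain ⟨r, hr⟩ : ∃ r : ℚ, algebraMap ℚ Qbar r = (x + v) / 2 := by
    refine exists_rat_of_fixed fun σ => ?_
    rcases hswap σ with ⟨h1, h2⟩ | ⟨h1, h2⟩ <;> simp [h1, h2, map_div₀, map_ofNat, add_comm]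
  obtain ⟨δ, hδ⟩ : ∃ d : ℚ, algebraMap ℚ Qbar d = (x - v) ^ 2 := by
    refine exists_rat_of_fixed fun σ => ?_
    rcases hswap σ with ⟨h1, h2⟩ | ⟨h1, h2⟩ <;> simp [h1, h2] <;> ring
  have hr2 : 2 * algebraMap ℚ Qbar r = x + v := by rw [hr]; ring
  have hδ0 : δ ≠ 0 := by
    rintro rfl
    rw [map_zero] at hδ
    exact hne (sub_eq_zero.mp (pow_eq_zero_iff two_ne_zero |>.mp hδ.symm))
  obtain ⟨e1, e2⟩ := hrel _ _ _ _ _ hr2 hδ rfl rfl rfl
  refine ⟨r, δ, hδ0, (algebraMap ℚ Qbar).injective ?_, (algebraMap ℚ Qbar).injective ?_⟩ <;>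
    simp only [variableChange_b₂, variableChange_b₄, variableChange_b₆, shiftX, inv_one,
      Units.val_one, one_pow, one_mul, map_mul, map_add, map_pow, map_ofNat]
  · simpa [WeierstrassCurve.baseChange, WeierstrassCurve.map_b₂, WeierstrassCurve.map_b₄, WeierstrassCurve.map_b₆] using e1
  · simpa [WeierstrassCurve.baseChange, WeierstrassCurve.map_b₂, WeierstrassCurve.map_b₄, WeierstrassCurve.map_b₆] using e2

end

/-- S51, given the orders of the groups of 3- and 5-torsion points. -/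
theorem mod_three_or_five (W : WeierstrassCurve ℤ) (hΔ : W.Δ ≠ 0) (hW : W.IsSemistableModel)
    (c3 : Nat.card (Submodule.torsionBy ℤ
      ((W.map (Int.castRingHom ℚ)).toAffine⁄Qbar).Point (3 : ℕ)) = 3 ^ 2)
    (c5 : Nat.card (Submodule.torsionBy ℤ
      ((W.map (Int.castRingHom ℚ)).toAffine⁄Qbar).Point (5 : ℕ)) = 5 ^ 2) :
    W.ModRepIsIrreducible 3 ∨ W.ModRepIsIrreducible 5 := by
  by_contra h
  rw [not_or] at h
  set E := W.map (Int.castRingHom ℚ) with hE
  have : Fact (Nat.Prime 3) := ⟨by norm_num⟩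
  have : Fact (Nat.Prime 5) := ⟨by norm_num⟩
  obtain ⟨x₃, y₃, hxy₃, h3, hσ3⟩ := exists_stable_line c3 h.1
  obtain ⟨x₅, y₅, hxy₅, h5, hσ5⟩ := exists_stable_line c5 h.2
  obtain ⟨q, hq⟩ := exists_rat_root_psi_three E h3 hσ3
  obtain ⟨r, δ, hδ, e1, e2⟩ := exists_five_datum E h5 hσ5
  have hΔE : E.Δ = (W.Δ : ℚ) := by simp [hE]
  have hc4E : E.c₄ = (W.c₄ : ℚ) := by simp [hE]
  have hd : (shiftX r • E).Δ = (W.Δ : ℚ) := by simp [variableChange_Δ, shiftX, hΔE]
  obtain ⟨num, den, h5num, h125, hden, heq⟩ := exceptional_of_three_five (shiftX r • E)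
    (by rw [hd]; exact_mod_cast hΔ) hδ e1 e2 (x := q - r) (by
      simp only [variableChange_b₂, variableChange_b₄, variableChange_b₆, variableChange_b₈,
        shiftX, inv_one, Units.val_one, one_pow, one_mul]
      linear_combination hq)
  rw [hd, variableChange_c₄, hc4E] at heq
  simp only [shiftX, inv_one, Units.val_one, one_pow, one_mul] at heq
  have heq' : W.c₄ ^ 3 * den = num * W.Δ := by exact_mod_cast heq
  have hp : Prime (5 : ℤ) := by norm_num
  have hc : (5 : ℤ) ∣ W.c₄ := by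
    have : (5 : ℤ) ∣ W.c₄ ^ 3 * den := heq' ▸ dvd_mul_of_dvd_left h5num _
    rcases hp.dvd_or_dvd this with h | h
    · exact hp.dvd_of_dvd_pow h
    · exact absurd h hden
  have hnd : ¬ (5 : ℤ) ∣ W.Δ := fun hd => hW 5 (by norm_num) (by exact_mod_cast hd) (by exact_mod_cast hc)
  apply h125
  have h3' : (125 : ℤ) ∣ num * W.Δ := by
    rw [← heq']
    exact dvd_mul_of_dvd_left (by simpa using pow_dvd_pow_of_dvd hc 3) _
  have hco : IsCoprime (125 : ℤ) W.Δ := by
    simpa using ((hp.coprime_iff_not_dvd).mpr hnd).pow_left (m := 3)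
  exact hco.dvd_of_dvd_mul_right h3'

end Fermat.Agent.X15
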