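import Mathlib.NumberTheory.PythagoreanTriples
import Mathlib.Tactic
import Mathlib.Data.ZMod.Basic
import Mathlib.NumberTheory.Divisors
import Mathlib.RingTheory.Int.Basic

/-!
# Rational points on `Y² = X (X + 9) (X - 16)`

An elementary infinite descent: this is a model of `X₀(15)`, it has exactly eight rational points.
-/

set_option autoImplicit false

namespace Fermat.Agent.X15

/-- `u² - e²` and `u² - 81 e²` are both squares. -/
def Trip (u e : ℤ) : Prop := ∃ A C : ℤ, A ^ 2 + e ^ 2 = u ^ 2 ∧ C ^ 2 + 81 * e ^ 2 = u ^ 2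

lemma three_dvd_of_sq_add_sq {x y : ℤ} (h : (3 : ℤ) ∣ x ^ 2 + y ^ 2) :
    (3 : ℤ) ∣ x ∧ (3 : ℤ) ∣ y := by
  have key : ∀ a b : ZMod 3, a ^ 2 + b ^ 2 = 0 → a = 0 ∧ b = 0 := by decide
  have h' : ((x ^ 2 + y ^ 2 : ℤ) : ZMod 3) = 0 :=
    (ZMod.intCast_zmod_eq_zero_iff_dvd _ 3).mpr (by exact_mod_cast h)
  push_cast at h'
  obtain ⟨hx, hy⟩ := key _ _ h'
  exact ⟨by exact_mod_cast (ZMod.intCast_zmod_eq_zero_iff_dvd _ 3).mp hx,
    by exact_mod_cast (ZMod.intCast_zmod_eq_zero_iff_dvd _ 3).mp hy⟩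

lemma nine_dvd_of_sq_add_sq {c b d : ℤ} (h : c ^ 2 + d ^ 2 = 81 * b ^ 2) :
    ∃ c' d', c = 9 * c' ∧ d = 9 * d' ∧ c' ^ 2 + d' ^ 2 = b ^ 2 := by
  obtain ⟨⟨c1, rfl⟩, ⟨d1, rfl⟩⟩ := three_dvd_of_sq_add_sq (x := c) (y := d) ⟨27 * b ^ 2, by linarith⟩
  have h1 : c1 ^ 2 + d1 ^ 2 = 9 * b ^ 2 := by linarith
  obtain ⟨⟨c2, rfl⟩, ⟨d2, rfl⟩⟩ := three_dvd_of_sq_add_sq (x := c1) (y := d1) ⟨3 * b ^ 2, by linarith⟩
  exact ⟨c2, d2, by ring, by ring, by linarith⟩

lemma eight_dvd_odd_sq_sub {b c : ℤ} (hb : Odd b) (hc : Odd c) : (8 : ℤ) ∣ c ^ 2 - b ^ 2 := by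
  obtain ⟨i, rfl⟩ := hb
  obtain ⟨j, rfl⟩ := hc
  obtain ⟨i', hi⟩ := Int.even_mul_succ_self i
  obtain ⟨j', hj⟩ := Int.even_mul_succ_self j
  exact ⟨j' - i', by linear_combination 4 * hj - 4 * hi⟩

lemma odd_of_isCoprime_of_even_sub {b c : ℤ} (h : IsCoprime b c) (he : (2 : ℤ) ∣ c ^ 2 - b ^ 2) :
    Odd b ∧ Odd c := by
  have h' : Even (c ^ 2 - b ^ 2) := even_iff_two_dvd.mpr he
  rw [Int.even_sub, Int.even_pow' two_ne_zero, Int.even_pow' two_ne_zero] at h'
  have : ¬ (Even b ∧ Even c) := fun ⟨e1, e2⟩ => by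
    have := h.isUnit_of_dvd' (even_iff_two_dvd.mp e1) (even_iff_two_dvd.mp e2)
    rw [Int.isUnit_iff] at this; omega
  simp only [← Int.not_even_iff_odd]
  tauto

/-- One descent step. -/
lemma trip_of_coprime_pair {a b c d k : ℤ} (ha : 0 < a) (hb : 0 < b) (hc : 0 < c) (hd : 0 < d)
    (hbc : IsCoprime b c) (had : IsCoprime a d)
    (hX : c ^ 2 - b ^ 2 = k * a ^ 2) (hY : c ^ 2 - 81 * b ^ 2 = k * d ^ 2) :
    ∃ u e : ℤ, 0 < e ∧ Trip u e ∧ (e ≤ a ∨ e ≤ b ∨ e ≤ c ∨ e ≤ d) := by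
  have h80 : 80 * b ^ 2 = k * (a ^ 2 - d ^ 2) := by linarith
  have hkb : IsCoprime k (b ^ 2) := by
    obtain ⟨x, y, hxy⟩ := (IsCoprime.pow (m := 2) (n := 2) hbc.symm)
    exact ⟨x * a ^ 2, x + y, by linear_combination hxy - x * hX⟩
  have hk80 : k ∣ 80 := hkb.dvd_of_dvd_mul_right ⟨_, h80⟩
  have height : (2 : ℤ) ∣ k → (8 : ℤ) ∣ k := by
    intro h2
    obtain ⟨hob, hoc⟩ := odd_of_isCoprime_of_even_sub hbc (hX ▸ dvd_mul_of_dvd_left h2 _)
    have h8 := eight_dvd_odd_sq_sub hob hoc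
    have hA : (8 : ℤ) ∣ k * a ^ 2 := hX ▸ h8
    have hD : (8 : ℤ) ∣ k * d ^ 2 := by
      rw [← hY, show c ^ 2 - 81 * b ^ 2 = c ^ 2 - b ^ 2 - 8 * (10 * b ^ 2) by ring]
      exact dvd_sub h8 (dvd_mul_right _ _)
    obtain ⟨x, y, hxy⟩ := IsCoprime.pow (m := 2) (n := 2) had
    have : k = x * (k * a ^ 2) + y * (k * d ^ 2) := by linear_combination (-k) * hxy
    rw [this]
    exact dvd_add (dvd_mul_of_dvd_right hA _) (dvd_mul_of_dvd_right hD _)
  have hten : ∀ j : ℤ, (j = 10 ∨ j = -10 ∨ j = 2 ∨ j = -2) → Odd b → j * b ^ 2 ≠ a ^ 2 - d ^ 2 := by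
    intro j hj hob he
    obtain ⟨i, rfl⟩ := hob
    have key : ∀ x y z : ZMod 4, x ^ 2 - y ^ 2 ≠ 2 * (2 * z + 1) ^ 2 := by decide
    apply key (a : ZMod 4) (d : ZMod 4) (i : ZMod 4)
    have := congrArg (fun n : ℤ => (n : ZMod 4)) he
    push_cast at this
    rw [← this]
    have hj' : (j : ZMod 4) = 2 := by rcases hj with rfl | rfl | rfl | rfl <;> decide
    rw [hj']
  have hkn : k.natAbs ∈ Nat.divisors 80 := by
    rw [Nat.mem_divisors]; refine ⟨?_, by norm_num⟩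
    have := Int.natAbs_dvd_natAbs.mpr hk80
    simpa using this
  rw [show Nat.divisors 80 = {1, 2, 4, 5, 8, 10, 16, 20, 40, 80} from by decide] at hkn
  simp only [Finset.mem_insert, Finset.mem_singleton] at hkn
  have hodd : (2 : ℤ) ∣ k → Odd b := fun h2 =>
    (odd_of_isCoprime_of_even_sub hbc (hX ▸ dvd_mul_of_dvd_left h2 _)).1
  have hneg : ∀ a' d' : ℤ, c ^ 2 + a' ^ 2 = b ^ 2 → c ^ 2 + d' ^ 2 = 81 * b ^ 2 →
      ∃ u e : ℤ, 0 < e ∧ Trip u e ∧ (e ≤ a ∨ e ≤ b ∨ e ≤ c ∨ e ≤ d) := by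
    intro a' d' h1 h2
    obtain ⟨c', d'', rfl, rfl, h3⟩ := nine_dvd_of_sq_add_sq h2
    exact ⟨b, c', by linarith, ⟨d'', a', by linarith, by linarith⟩,
      Or.inr (Or.inr (Or.inl (by linarith)))⟩
  rcases Int.natAbs_eq k with hk | hk <;>
    rcases hkn with h | h | h | h | h | h | h | h | h | h <;> rw [h] at hk <;> push_cast at hk <;>
    subst hk
  -- k > 0
  · exact ⟨c, b, hb, ⟨a, d, by linarith, by linarith⟩, Or.inr (Or.inl le_rfl)⟩
  · exact absurd (height (by norm_num)) (by norm_num)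
  · exact absurd (height (by norm_num)) (by norm_num)
  · exact ⟨9 * a, d, hd, ⟨4 * c, 36 * b, by linarith, by linarith⟩, Or.inr (Or.inr (Or.inr le_rfl))⟩
  · exact absurd (by linarith) (hten 10 (by norm_num) (hodd (by norm_num)))
  · exact absurd (height (by norm_num)) (by norm_num)
  · exact ⟨c, b, hb, ⟨4 * a, 4 * d, by linarith, by linarith⟩, Or.inr (Or.inl le_rfl)⟩
  · exact absurd (height (by norm_num)) (by norm_num)
  · exact absurd (by linarith) (hten 2 (by norm_num) (hodd (by norm_num)))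
  · exact ⟨9 * a, d, hd, ⟨c, 9 * b, by linarith, by linarith⟩, Or.inr (Or.inr (Or.inr le_rfl))⟩
  -- k < 0
  · exact hneg a d (by linarith) (by linarith)
  · exact absurd (height (by norm_num)) (by norm_num)
  · exact absurd (height (by norm_num)) (by norm_num)
  · exact ⟨d, a, ha, ⟨4 * b, 4 * c, by linarith, by linarith⟩, Or.inl le_rfl⟩
  · exact absurd (by linarith) (hten (-10) (by norm_num) (hodd (by norm_num)))
  · exact absurd (height (by norm_num)) (by norm_num)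
  · exact hneg (4 * a) (4 * d) (by linarith) (by linarith)
  · exact absurd (height (by norm_num)) (by norm_num)
  · exact absurd (by linarith) (hten (-2) (by norm_num) (hodd (by norm_num)))
  · exact ⟨d, a, ha, ⟨b, c, by linarith, by linarith⟩, Or.inl le_rfl⟩

lemma isCoprime_of_sq_add {A B u : ℤ} (h : A ^ 2 + B ^ 2 = u ^ 2) (hu : IsCoprime u B) :
    IsCoprime A B := by
  obtain ⟨x, y, hxy⟩ := hu.pow_left (m := 2)
  exact ⟨x * A, x * B + y, by linear_combination hxy + x * h⟩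

lemma trip_of_four_numbers {m n p' q e : ℤ} (hm : 0 < m) (hn : 0 < n) (hp' : 0 < p') (hq : 0 < q)
    (hcom : IsCoprime m n) (hcp : IsCoprime p' q) (heq : m * n = p' * q)
    (hsq : m ^ 2 + n ^ 2 = 81 * p' ^ 2 + q ^ 2) (hmn : e = 2 * (m * n)) :
    ∃ u' e' : ℤ, 0 < e' ∧ e' < e ∧ Trip u' e' := by
  obtain ⟨a, c, b, ha, hcb, hma, hpa⟩ :
      ∃ a c b : ℤ, 0 < a ∧ IsCoprime c b ∧ m = a * c ∧ p' = a * b := by
    refine ⟨(Int.gcd m p' : ℤ), m / Int.gcd m p', p' / Int.gcd m p', ?_, ?_, ?_, ?_⟩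
    · exact_mod_cast Int.gcd_pos_of_ne_zero_left _ hm.ne'
    · exact Int.isCoprime_iff_gcd_eq_one.mpr
        (Int.gcd_div_gcd_div_gcd (Int.gcd_pos_of_ne_zero_left _ hm.ne'))
    · exact (Int.mul_ediv_cancel' (Int.gcd_dvd_left _ _)).symm
    · exact (Int.mul_ediv_cancel' (Int.gcd_dvd_right _ _)).symm
  subst hma hpa
  have hc : 0 < c := pos_of_mul_pos_right hm ha.le
  have hb : 0 < b := pos_of_mul_pos_right hp' ha.le
  have h1 : c * n = b * q := mul_left_cancel₀ ha.ne' (by linarith)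
  obtain ⟨d, rfl⟩ : c ∣ q := hcb.dvd_of_dvd_mul_left ⟨n, h1.symm⟩
  obtain rfl : n = b * d := mul_left_cancel₀ hc.ne' (by linarith)
  have hd : 0 < d := pos_of_mul_pos_right hq hc.le
  have had : IsCoprime a d := hcp.of_mul_left_left.of_mul_right_right
  have hrel : a ^ 2 * (c ^ 2 - 81 * b ^ 2) = d ^ 2 * (c ^ 2 - b ^ 2) := by linarith
  obtain ⟨k, hk⟩ : d ^ 2 ∣ c ^ 2 - 81 * b ^ 2 :=
    (had.symm.pow (m := 2) (n := 2)).dvd_of_dvd_mul_left ⟨_, hrel⟩
  have hX : c ^ 2 - b ^ 2 = k * a ^ 2 :=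
    mul_left_cancel₀ (pow_ne_zero 2 hd.ne') (by rw [← hrel, hk]; ring)
  obtain ⟨u', e', he', ht, hle⟩ :=
    trip_of_coprime_pair ha hb hc hd hcb.symm had hX (by linarith)
  refine ⟨u', e', he', ?_, ht⟩
  have e1 : e = 2 * (a * b * c * d) := by rw [hmn]; ring
  have i1 : a ≤ a * b * c * d := by
    calc a = a * 1 * 1 * 1 := by ring
    _ ≤ a * b * c * d := by gcongr <;> linarith
  have i2 : b ≤ a * b * c * d := by
    calc b = 1 * b * 1 * 1 := by ring
    _ ≤ a * b * c * d := by gcongr <;> linarith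
  have i3 : c ≤ a * b * c * d := by
    calc c = 1 * 1 * c * 1 := by ring
    _ ≤ a * b * c * d := by gcongr <;> linarith
  have i4 : d ≤ a * b * c * d := by
    calc d = 1 * 1 * 1 * d := by ring
    _ ≤ a * b * c * d := by gcongr <;> linarith
  rcases hle with hle | hle | hle | hle <;> linarith

lemma not_trip_of_coprime {u e : ℤ} (he : 0 < e) (hu : 0 < u) (hco : IsCoprime u e)
    (h : Trip u e) :
    ∃ u' e' : ℤ, 0 < e' ∧ e' < e ∧ Trip u' e' := by
  obtain ⟨A, C, hA, hC⟩ := h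
  -- `3 ∤ u`
  have h3u : ¬ (3 : ℤ) ∣ u := by
    intro h3
    have := three_dvd_of_sq_add_sq (x := A) (y := e) (hA ▸ dvd_pow h3 two_ne_zero)
    have h' := hco.isUnit_of_dvd' h3 this.2
    rw [Int.isUnit_iff] at h'; omega
  have hco9 : IsCoprime u (9 * e) := by
    refine IsCoprime.mul_right ?_ hco
    have : IsCoprime u 3 := ((Int.prime_three.coprime_iff_not_dvd).mpr h3u).symm
    have := this.pow_right (n := 2)
    norm_num at this; exact this
  have hC' : C ^ 2 + (9 * e) ^ 2 = u ^ 2 := by linarith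
  have cA : Int.gcd A e = 1 := Int.isCoprime_iff_gcd_eq_one.mp (isCoprime_of_sq_add hA hco)
  have cC : Int.gcd C (9 * e) = 1 :=
    Int.isCoprime_iff_gcd_eq_one.mp (isCoprime_of_sq_add hC' hco9)
  rcases Int.emod_two_eq_zero_or_one e with hev | hodd
  · -- `e` even
    have hAo : A % 2 = 1 := by
      rcases Int.emod_two_eq_zero_or_one A with hA0 | hA1
      · have := (Int.isCoprime_iff_gcd_eq_one.mpr cA).isUnit_of_dvd' (Int.dvd_of_emod_eq_zero hA0)
          (Int.dvd_of_emod_eq_zero hev)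
        rw [Int.isUnit_iff] at this; omega
      · exact hA1
    have hCo : C % 2 = 1 := by
      rcases Int.emod_two_eq_zero_or_one C with hC0 | hC1
      · have := (Int.isCoprime_iff_gcd_eq_one.mpr cC).isUnit_of_dvd' (Int.dvd_of_emod_eq_zero hC0)
          (dvd_mul_of_dvd_right (Int.dvd_of_emod_eq_zero hev) _)
        rw [Int.isUnit_iff] at this; omega
      · exact hC1
    obtain ⟨m, n, -, hmn, humn, hcmn, -, hm0⟩ :=
      PythagoreanTriple.coprime_classification' (x := A) (y := e) (z := u)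
        (by unfold PythagoreanTriple; linarith) cA hAo hu
    obtain ⟨p, q, -, hpq, hupq, hcpq, -, hp0⟩ :=
      PythagoreanTriple.coprime_classification' (x := C) (y := 9 * e) (z := u)
        (by unfold PythagoreanTriple; linarith) cC hCo hu
    have hm : 0 < m := by
      rcases hm0.lt_or_eq with h | h
      · exact h
      · subst h; simp at hmn; omega
    have hn : 0 < n := pos_of_mul_pos_right (a := 2 * m) (by linarith) (by linarith)
    have hp : 0 < p := by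
      rcases hp0.lt_or_eq with h | h
      · exact h
      · subst h; simp at hpq; omega
    have hq : 0 < q := pos_of_mul_pos_right (a := 2 * p) (by linarith) (by linarith)
    have hcop : IsCoprime p q := Int.isCoprime_iff_gcd_eq_one.mpr hcpq
    have hcom : IsCoprime m n := Int.isCoprime_iff_gcd_eq_one.mpr hcmn
    have h9 : 9 * (m * n) = p * q := by linarith
    have core : ∀ p' q : ℤ, 0 < p' → 0 < q → IsCoprime p' q → m * n = p' * q →
        m ^ 2 + n ^ 2 = 81 * p' ^ 2 + q ^ 2 → ∃ u' e' : ℤ, 0 < e' ∧ e' < e ∧ Trip u' e' :=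
      fun p' q hp' hq hcp heq hsq =>
        trip_of_four_numbers hm hn hp' hq hcom hcp heq hsq (by linarith)
    have h3p : (3 : ℤ) ∣ p ∨ (3 : ℤ) ∣ q :=
      Int.prime_three.dvd_or_dvd ⟨3 * (m * n), by linarith⟩
    rcases h3p with h3 | h3
    · have : IsCoprime 3 q := hcop.of_isCoprime_of_dvd_left h3
      have h9q : IsCoprime (9 : ℤ) q := by simpa using this.pow_left (m := 2)
      obtain ⟨p', rfl⟩ := h9q.dvd_of_dvd_mul_right ⟨m * n, h9.symm⟩
      exact core p' q (by linarith) hq hcop.of_mul_left_right (by linarith) (by linarith)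
    · have : IsCoprime 3 p := hcop.symm.of_isCoprime_of_dvd_left h3
      have h9p : IsCoprime (9 : ℤ) p := by simpa using this.pow_left (m := 2)
      obtain ⟨q', rfl⟩ := h9p.dvd_of_dvd_mul_left ⟨m * n, h9.symm⟩
      exact core q' p (by linarith) hp hcop.symm.of_mul_left_right (by linarith) (by linarith)
  · -- `e` odd is impossible
    exfalso
    obtain ⟨m, n, hem, -, humn, -, hpar, -⟩ :=
      PythagoreanTriple.coprime_classification' (x := e) (y := A) (z := u)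
        (by unfold PythagoreanTriple; linarith) (by rw [Int.gcd_comm]; exact cA) hodd hu
    obtain ⟨p, q, hep, -, hupq, -, -, -⟩ :=
      PythagoreanTriple.coprime_classification' (x := 9 * e) (y := C) (z := u)
        (by unfold PythagoreanTriple; linarith) (by rw [Int.gcd_comm]; exact cC) (by omega) hu
    have key : ∀ x y z : ZMod 8, z ^ 2 ≠ 5 * (2 * x + 1) ^ 2 - 4 * (2 * y) ^ 2 := by decide
    rcases hpar with ⟨hm, hn⟩ | ⟨hm, hn⟩
    · have hq : q ^ 2 = 5 * n ^ 2 - 4 * m ^ 2 := by nlinarith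
      obtain ⟨i, rfl⟩ : ∃ i, n = 2 * i + 1 := ⟨n / 2, by omega⟩
      obtain ⟨j, rfl⟩ : ∃ j, m = 2 * j := ⟨m / 2, by omega⟩
      exact key i j q (by exact_mod_cast congrArg (fun t : ℤ => (t : ZMod 8)) hq)
    · have hq : p ^ 2 = 5 * m ^ 2 - 4 * n ^ 2 := by nlinarith
      obtain ⟨i, rfl⟩ : ∃ i, m = 2 * i + 1 := ⟨m / 2, by omega⟩
      obtain ⟨j, rfl⟩ : ∃ j, n = 2 * j := ⟨n / 2, by omega⟩
      exact key i j p (by exact_mod_cast congrArg (fun t : ℤ => (t : ZMod 8)) hq)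

theorem not_trip {u e : ℤ} (he : 0 < e) : ¬ Trip u e := by
  suffices H : ∀ N : ℕ, ∀ u e : ℤ, e.natAbs = N → 0 < e → ¬ Trip u e from H _ u e rfl he
  intro N
  induction N using Nat.strong_induction_on with
  | _ N ih =>
    intro u e hN he ⟨A, C, hA, hC⟩
    subst hN
    have hu : u ≠ 0 := by rintro rfl; nlinarith [sq_nonneg A]
    by_cases hg : Int.gcd u e = 1
    · obtain ⟨u', e', he', hlt, ht⟩ := not_trip_of_coprime he (abs_pos.mpr hu)
        (Int.isCoprime_iff_gcd_eq_one.mpr (by simpa [Int.gcd, Int.natAbs_abs] using hg))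
        ⟨A, C, by rw [sq_abs]; exact hA, by rw [sq_abs]; exact hC⟩
      exact ih _ (by omega) u' e' rfl he' ht
    · obtain ⟨g, hgdef⟩ : ∃ g : ℤ, g = (Int.gcd u e : ℤ) := ⟨_, rfl⟩
      have hg1 : 1 < g := by
        have : 0 < Int.gcd u e := Int.gcd_pos_of_ne_zero_right _ he.ne'
        omega
      obtain ⟨u', rfl⟩ : g ∣ u := hgdef ▸ Int.gcd_dvd_left _ _
      obtain ⟨e', rfl⟩ : g ∣ e := hgdef ▸ Int.gcd_dvd_right _ _
      have he' : 0 < e' := pos_of_mul_pos_right he (by linarith)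
      obtain ⟨A', rfl⟩ : g ∣ A :=
        (Int.pow_dvd_pow_iff two_ne_zero).mp ⟨u' ^ 2 - e' ^ 2, by linarith⟩
      obtain ⟨C', rfl⟩ : g ∣ C :=
        (Int.pow_dvd_pow_iff two_ne_zero).mp ⟨u' ^ 2 - 81 * e' ^ 2, by linarith⟩
      have hg2 : g ^ 2 ≠ 0 := pow_ne_zero _ (by omega)
      refine ih e'.natAbs ?_ u' e' rfl he' ⟨A', C', mul_left_cancel₀ hg2 (by linarith),
        mul_left_cancel₀ hg2 (by linarith)⟩
      have : e' < g * e' := by nlinarith
      omega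

/-- The product `(c² - b²) (c² - 81 b²)` is a square only in trivial cases. -/
theorem not_sq_quartic {b c w : ℤ} (hb : 0 < b) (hc : 0 < c) (hbc : IsCoprime b c) (hw : w ≠ 0) :
    (c ^ 2 - b ^ 2) * (c ^ 2 - 81 * b ^ 2) ≠ w ^ 2 := by
  intro h
  set X := c ^ 2 - b ^ 2 with hXdef
  set Y := c ^ 2 - 81 * b ^ 2 with hYdef
  have hX0 : X ≠ 0 := fun h0 => hw (by simpa [h0] using h.symm)
  obtain ⟨g, X', Y', hg, hco, hX, hY⟩ : ∃ g X' Y' : ℤ, g ≠ 0 ∧ IsCoprime X' Y' ∧ X = g * X' ∧ Y = g * Y' :=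
    ⟨(Int.gcd X Y : ℤ), X / Int.gcd X Y, Y / Int.gcd X Y,
      by exact_mod_cast (Int.gcd_pos_of_ne_zero_left Y hX0).ne',
      Int.isCoprime_iff_gcd_eq_one.mpr (Int.gcd_div_gcd_div_gcd (Int.gcd_pos_of_ne_zero_left _ hX0)),
      (Int.mul_ediv_cancel' (Int.gcd_dvd_left _ _)).symm,
      (Int.mul_ediv_cancel' (Int.gcd_dvd_right _ _)).symm⟩
  obtain ⟨w', rfl⟩ : g ∣ w := (Int.pow_dvd_pow_iff two_ne_zero).mp ⟨X' * Y', by rw [← h, hX, hY]; ring⟩
  have hsq : X' * Y' = w' ^ 2 :=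
    mul_left_cancel₀ (pow_ne_zero 2 hg) (by
      have := h
      rw [hX, hY] at this
      linear_combination this)
  have hw' : w' ≠ 0 := fun h0 => hw (by simp [h0])
  have hpos : 0 < X' * Y' := hsq ▸ by positivity
  obtain ⟨a, hXa⟩ := Int.sq_of_isCoprime hco hsq
  obtain ⟨d, hYd⟩ := Int.sq_of_isCoprime hco.symm (by rw [mul_comm]; exact hsq)
  obtain ⟨s, hs1, hs2⟩ : ∃ s : ℤ, X' = s * a ^ 2 ∧ Y' = s * d ^ 2 := by
    rcases hXa with rfl | rfl <;> rcases hYd with rfl | rfl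
    · exact ⟨1, by ring, by ring⟩
    · nlinarith [sq_nonneg (a * d)]
    · nlinarith [sq_nonneg (a * d)]
    · exact ⟨-1, by ring, by ring⟩
  subst hs1 hs2
  have ha : a ≠ 0 := by rintro rfl; simp at hpos
  have hd : d ≠ 0 := by rintro rfl; simp at hpos
  have had : IsCoprime |a| |d| := by
    have := hco.of_mul_left_right.of_mul_right_right
    exact ((IsCoprime.pow_iff two_pos two_pos).mp this).abs_abs
  obtain ⟨u, e, he, ht, -⟩ := trip_of_coprime_pair (abs_pos.mpr ha) hb hc (abs_pos.mpr hd) hbc had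
    (k := g * s) (by rw [sq_abs, ← hXdef, hX]; ring) (by rw [sq_abs, ← hYdef, hY]; ring)
  exact not_trip he ht

/-- The rational points of the model `Y² = X (X + 9) (X - 16)` of `X₀(15)`. -/
theorem rational_points {X Y : ℚ} (h : Y ^ 2 = X * (X + 9) * (X - 16)) :
    X = 0 ∨ X = -9 ∨ X = 16 ∨ X = 36 ∨ X = -4 := by
  by_contra hne
  simp only [not_or] at hne
  obtain ⟨h0, h9, h16, h36, h4⟩ := hne
  have h16' : X - 16 ≠ 0 := sub_ne_zero.mpr h16
  obtain ⟨r, hr⟩ : ∃ r, r = Y / (X - 16) := ⟨_, rfl⟩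
  have hY : Y ≠ 0 := by
    rintro rfl
    have : X * (X + 9) = 0 := by
      have := h.symm; simp [h16'] at this; rcases this with h | h <;> simp [h]
    rcases mul_eq_zero.mp this with h | h
    · exact h0 h
    · exact h9 (by linarith)
  have hr2 : r ^ 2 * (X - 16) = X * (X + 9) := by
    rw [hr]; field_simp; linear_combination h
  obtain ⟨z, hz⟩ : ∃ z, z = (X + 4) * (X - 36) / (X - 16) := ⟨_, rfl⟩
  have hz0 : z ≠ 0 := by
    rw [hz]
    exact div_ne_zero (mul_ne_zero (fun h => h4 (by linarith)) (fun h => h36 (by linarith))) h16'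
  have hrz : (r ^ 2 - 1) * (r ^ 2 - 81) = z ^ 2 := by
    have e1 : r ^ 2 = X * (X + 9) / (X - 16) := by rw [eq_div_iff h16']; exact hr2
    rw [hz, e1]; field_simp; ring
  have hb : (0 : ℤ) < r.den := by exact_mod_cast r.pos
  have hc : 0 < |r.num| := abs_pos.mpr (Rat.num_ne_zero.mpr (by rw [hr]; exact div_ne_zero hY h16'))
  have hco : IsCoprime (r.den : ℤ) |r.num| := by
    rw [Int.isCoprime_iff_gcd_eq_one]
    have := r.reduced
    simpa [Int.gcd, Int.natAbs_abs, Nat.Coprime, Nat.gcd_comm] using this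
  have hint : ((( |r.num| ^ 2 - (r.den : ℤ) ^ 2) * (|r.num| ^ 2 - 81 * (r.den : ℤ) ^ 2) : ℤ) : ℚ)
      = (z * (r.den : ℚ) ^ 2) ^ 2 := by
    have hn : (r.num : ℚ) = r * r.den := (Rat.mul_den_eq_num r).symm
    rw [sq_abs]
    push_cast
    rw [hn]
    linear_combination (r.den : ℚ) ^ 4 * hrz
  obtain ⟨Z, hZ⟩ : ∃ Z : ℤ, (Z : ℚ) = z * (r.den : ℚ) ^ 2 := by
    have : (z * (r.den : ℚ) ^ 2).den = 1 := by
      have h1 := congrArg Rat.den hint
      rw [Rat.den_intCast, Rat.den_pow] at h1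
      exact (Nat.pow_eq_one.mp h1.symm).resolve_right two_ne_zero
    exact ⟨_, Rat.den_eq_one_iff _ |>.mp this⟩
  refine not_sq_quartic hb hc hco (w := Z) ?_ ?_
  · intro h
    rw [h] at hZ
    exact mul_ne_zero hz0 (pow_ne_zero 2 (by exact_mod_cast r.den_ne_zero)) hZ.symm
  · rw [← hZ] at hint
    exact_mod_cast hint

end Fermat.Agent.X15
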