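import Fermat.Agent.X15.Param
import Mathlib.AlgebraicGeometry.EllipticCurve.VariableChange
import Mathlib.AlgebraicGeometry.EllipticCurve.Affine.Point

/-!
# Points of order three and five, and the `j`-invariants allowed by both structures
-/

set_option autoImplicit false

namespace Fermat.Agent.X15

open WeierstrassCurve

/-- Translation of the abscissa by `r`. -/
def shiftX {R : Type*} [CommRing R] (r : R) : VariableChange R := ⟨1, r, 0, 0⟩

section Points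

variable {K : Type*} [Field K] [DecidableEq K] [CharZero K] {E : WeierstrassCurve K}

lemma psi_three_eq_zero {x y : K} {h : E.toAffine.Nonsingular x y}
    (h3 : (3 : ℤ) • Affine.Point.some x y h = 0) :
    3 * x ^ 4 + E.b₂ * x ^ 3 + 3 * E.b₄ * x ^ 2 + 3 * E.b₆ * x + E.b₈ = 0 := by
  set P := Affine.Point.some x y h with hP
  have hne : P ≠ 0 := Affine.Point.some_ne_zero h
  have hy : y ≠ E.toAffine.negY x y := by
    intro hy
    have h2 : P + P = 0 := Affine.Point.add_self_of_Y_eq hy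
    apply hne
    calc P = (3 : ℤ) • P - (P + P) := by abel
    _ = 0 := by rw [h3, h2, sub_zero]
  have hdbl : P + P = -P := eq_neg_of_add_eq_zero_left (by rw [← h3]; abel)
  rw [hP, Affine.Point.add_self_of_Y_ne hy, Affine.Point.neg_some, Affine.Point.some.injEq] at hdbl
  have hx := hdbl.1
  generalize hl : E.toAffine.slope x x y y = l at hx
  rw [Affine.slope_of_Y_ne rfl hy] at hl
  simp only [Affine.addX] at hx
  simp only [Affine.negY] at hl hy
  have heq := (Affine.equation_iff x y).mp h.1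
  have hw : 2 * y + E.a₁ * x + E.a₃ ≠ 0 := by
    intro h0; exact hy (by linear_combination h0)
  rw [show y - (-y - E.a₁ * x - E.a₃) = 2 * y + E.a₁ * x + E.a₃ by ring, div_eq_iff hw] at hl
  obtain ⟨w, hwdef⟩ : ∃ w, w = 2 * y + E.a₁ * x + E.a₃ := ⟨_, rfl⟩
  rw [← hwdef] at hl
  have key : (3 * x ^ 2 + 2 * E.a₂ * x + E.a₄ - E.a₁ * y) ^ 2
      + E.a₁ * (3 * x ^ 2 + 2 * E.a₂ * x + E.a₄ - E.a₁ * y) * w - (E.a₂ + 3 * x) * w ^ 2 = 0 := by
    linear_combination w ^ 2 * hx + (l * w + (3 * x ^ 2 + 2 * E.a₂ * x + E.a₄ - E.a₁ * y) + E.a₁ * w) * hl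
  subst hwdef
  simp only [b₂, b₄, b₆, b₈]
  linear_combination (-1 : K) * key - (12 * x + E.a₁ ^ 2 + 4 * E.a₂) * heq

/-- The relations between the abscissae `u`, `v` of `P`, `2P` for a point `P` of order five. -/
lemma five_relations {x y : K} {h : E.toAffine.Nonsingular x y}
    (h5 : (5 : ℤ) • Affine.Point.some x y h = 0) :
    ∃ (v y' : K) (h' : E.toAffine.Nonsingular v y'),
      Affine.Point.some x y h + Affine.Point.some x y h = Affine.Point.some v y' h' ∧ x ≠ v ∧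
      ∀ r δ B b4 b6 : K, 2 * r = x + v → δ = (x - v) ^ 2 → B = E.b₂ + 12 * r →
        b4 = E.b₄ + r * E.b₂ + 6 * r ^ 2 →
        b6 = E.b₆ + 2 * r * E.b₄ + r ^ 2 * E.b₂ + 4 * r ^ 3 →
        B ^ 2 * δ = (2 * b4 + δ) ^ 2 + 4 * δ ^ 2 ∧ 4 * b6 = δ * B := by
  set P := Affine.Point.some x y h with hP
  have hne : P ≠ 0 := Affine.Point.some_ne_zero h
  have hy : y ≠ E.toAffine.negY x y := by
    intro hy
    have h2 : P + P = 0 := Affine.Point.add_self_of_Y_eq hy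
    apply hne
    calc P = (5 : ℤ) • P - (P + P) - (P + P) := by abel
    _ = 0 := by rw [h5, h2, sub_zero, sub_zero]
  have hxy : ¬(x = x ∧ y = E.toAffine.negY x y) := fun hh => hy hh.2
  refine ⟨_, _, Affine.nonsingular_add h h hxy, Affine.Point.add_self_of_Y_ne hy, ?_⟩
  have hQ := Affine.Point.add_self_of_Y_ne (h₁ := h) hy
  rw [← hP] at hQ
  have hxv : x ≠ E.toAffine.addX x x (E.toAffine.slope x x y y) := by
    intro he
    rcases (Affine.Point.X_eq_iff (h₁ := h) (h₂ := Affine.nonsingular_add h h hxy)).mp he with hh | hh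
    · rw [← hP, ← hQ] at hh
      exact hne (by simpa using hh)
    · rw [← hP, ← hQ] at hh
      have h3 : (3 : ℤ) • P = 0 := by
        calc (3 : ℤ) • P = P - -(P + P) := by abel
        _ = 0 := by rw [← hh, sub_self]
      apply hne
      calc P = (2 : ℤ) • ((3 : ℤ) • P) - (5 : ℤ) • P := by abel
      _ = 0 := by rw [h3, h5, smul_zero, sub_zero]
  refine ⟨hxv, ?_⟩
  -- `P + 2P = -(2P)`
  have h32 : P + (P + P) = -(P + P) := eq_neg_of_add_eq_zero_left (by rw [← h5]; abel)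
  rw [hQ, hP, Affine.Point.add_of_X_ne hxv, Affine.Point.neg_some,
    Affine.Point.some.injEq] at h32
  have hcond := h32.1
  rw [Affine.slope_of_X_ne hxv] at hcond
  simp only [Affine.addY, Affine.negAddY, Affine.negY] at hcond
  generalize hl : E.toAffine.slope x x y y = l at hcond hxv ⊢
  have hl' := hl
  rw [Affine.slope_of_Y_ne rfl hy] at hl'
  generalize hv : E.toAffine.addX x x l = v at hcond hxv ⊢
  simp only [Affine.addX] at hv hcond
  simp only [Affine.negY] at hy hl'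
  have hw : 2 * y + E.a₁ * x + E.a₃ ≠ 0 := by
    intro h0; exact hy (by linear_combination h0)
  rw [show y - (-y - E.a₁ * x - E.a₃) = 2 * y + E.a₁ * x + E.a₃ by ring, div_eq_iff hw] at hl'
  have heq := (Affine.equation_iff x y).mp h.1
  intro r δ B b4 b6 hr hδ hB hb4 hb6
  -- the coefficients of the Tate normal form
  obtain ⟨A1, hA1⟩ : ∃ A, A = E.a₁ + 2 * l := ⟨_, rfl⟩
  obtain ⟨A2, hA2⟩ : ∃ A, A = x - v := ⟨_, rfl⟩
  obtain ⟨A3, hA3⟩ : ∃ A, A = 2 * y + E.a₁ * x + E.a₃ := ⟨_, rfl⟩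
  have hA20 : A2 ≠ 0 := hA2 ▸ sub_ne_zero.mpr hxv
  have hA30 : A3 ≠ 0 := hA3 ▸ hw
  have hva : v = x - A2 := by rw [hA2]; ring
  have eb2 : E.b₂ = A1 ^ 2 + 4 * A2 - 12 * x := by
    rw [hA1, hA2, ← hv, b₂]; ring
  have eb4 : E.b₄ = A1 * A3 - x * E.b₂ - 6 * x ^ 2 := by
    rw [hA1, hA3, b₂, b₄]; linear_combination 2 * hl'
  have eb6 : E.b₆ = A3 ^ 2 - 2 * x * E.b₄ - x ^ 2 * E.b₂ - 4 * x ^ 3 := by
    rw [hA3, b₂, b₄, b₆]; linear_combination -4 * heq
  have rel : A3 * (A3 - A1 * A2) + A2 ^ 3 = 0 := by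
    have hn : x - v ≠ 0 := sub_ne_zero.mpr hxv
    field_simp at hcond
    rw [hA1, hA2, hA3]
    linear_combination hcond - (x - v) ^ 2 * hv
  have hA1' : A1 = (A3 ^ 2 + A2 ^ 3) / (A2 * A3) := by
    rw [eq_div_iff (mul_ne_zero hA20 hA30)]; linear_combination -rel
  have hr' : r = x - A2 / 2 := by
    field_simp; linear_combination hr + hva
  constructor
  · rw [hδ, hB, hb4, eb4, eb2, hr', hva, hA1']; field_simp; ring
  · rw [hδ, hB, hb6, eb6, eb4, eb2, hr', hva, hA1']; field_simp; ring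

end Points

/-- The two structures force one of four exceptional `j`-invariants. -/
theorem exceptional_of_three_five (E : WeierstrassCurve ℚ) (hΔ : E.Δ ≠ 0) {δ x : ℚ} (hδ : δ ≠ 0)
    (h1 : E.b₂ ^ 2 * δ = (2 * E.b₄ + δ) ^ 2 + 4 * δ ^ 2) (h2 : 4 * E.b₆ = δ * E.b₂)
    (h3 : 3 * x ^ 4 + E.b₂ * x ^ 3 + 3 * E.b₄ * x ^ 2 + 3 * E.b₆ * x + E.b₈ = 0) :
    ∃ num den : ℤ, (5 : ℤ) ∣ num ∧ ¬ (125 : ℤ) ∣ num ∧ ¬ (5 : ℤ) ∣ den ∧
      E.c₄ ^ 3 * den = num * E.Δ := by
  obtain ⟨t, hb4⟩ : ∃ t, E.b₄ = δ * (t - 1) / 2 := ⟨2 * E.b₄ / δ + 1, by field_simp; ring⟩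
  have hb6 : E.b₆ = δ * E.b₂ / 4 := by linear_combination h2 / 4
  have hB : E.b₂ ^ 2 = δ * (t ^ 2 + 4) := by
    apply mul_left_cancel₀ hδ
    rw [hb4] at h1
    linear_combination h1
  have hD : t ^ 2 + 4 ≠ 0 := by positivity
  have hB0 : E.b₂ ≠ 0 := by
    intro h0; rw [h0] at hB; rcases mul_eq_zero.mp (hB.symm.trans (by ring : (0:ℚ) ^ 2 = 0)) with h | h
    · exact hδ h
    · exact hD h
  have hb8 : E.b₈ = δ ^ 2 * (2 * t + 3) / 16 := by
    have := E.b_relation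
    rw [hb4, hb6] at this
    linear_combination (1 / 4 : ℚ) * this + δ / 16 * hB
  have hc4 : E.c₄ = δ * (t ^ 2 - 12 * t + 16) := by
    rw [c₄, hb4]; linear_combination hB
  have hd : E.Δ = δ ^ 3 * (t - 11) := by
    rw [WeierstrassCurve.Δ, hb4, hb6, hb8]
    linear_combination (-(δ ^ 2 * (2 * t + 3)) / 16 - 27 * δ ^ 2 / 16 + 9 * δ ^ 2 * (t - 1) / 8) * hB
  obtain ⟨w, hw⟩ : ∃ w, x = w * E.b₂ / (2 * (t ^ 2 + 4)) :=
    ⟨2 * (t ^ 2 + 4) * x / E.b₂, by field_simp⟩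
  have hq : 3 * w ^ 4 + 2 * (t ^ 2 + 4) * w ^ 3 + 6 * (t ^ 2 + 4) * (t - 1) * w ^ 2
      + 6 * (t ^ 2 + 4) ^ 2 * w + (t ^ 2 + 4) ^ 2 * (2 * t + 3) = 0 := by
    have hδ' : δ = E.b₂ ^ 2 / (t ^ 2 + 4) := by rw [eq_div_iff hD]; linear_combination -hB
    rw [hw, hb6, hb8, hb4, hδ'] at h3
    field_simp at h3
    apply mul_left_cancel₀ (pow_ne_zero 4 hB0)
    linear_combination h3 / 64
  rcases param_values hq with rfl | rfl | rfl | rfl | rfl
  · exact ⟨-121945, 32, by norm_num, by norm_num, by norm_num, by rw [hc4, hd]; ring⟩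
  · exact ⟨46969655, 32768, by norm_num, by norm_num, by norm_num, by rw [hc4, hd]; ring⟩
  · exact ⟨-25, 2, by norm_num, by norm_num, by norm_num, by rw [hc4, hd]; ring⟩
  · exact absurd (by rw [hd]; ring) hΔ
  · exact ⟨-349938025, 8, by norm_num, by norm_num, by norm_num, by rw [hc4, hd]; ring⟩

end Fermat.Agent.X15
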