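import Fermat.Agent.X15.Descent

/-!
# The rational parametrisation `X₀(15) → Y² = X (X + 9) (X - 16)`

`W` is the abscissa of a point of order three on the normalised curve with
`b₂ = D`, `b₄ = D (t - 1) / 2`, `b₆ = D² / 4`, `D = t² + 4` (which has a stable subgroup of order five).
-/

set_option autoImplicit false

namespace Fermat.Agent.X15

/-- The values of the `X₀(5)` coordinate on rational points of `X₀(15)`. -/
theorem param_values {t W : ℚ}
    (h : 3 * W ^ 4 + 2 * (t ^ 2 + 4) * W ^ 3 + 6 * (t ^ 2 + 4) * (t - 1) * W ^ 2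
      + 6 * (t ^ 2 + 4) ^ 2 * W + (t ^ 2 + 4) ^ 2 * (2 * t + 3) = 0) :
    t = -3/2 ∨ t = 63/8 ∨ t = 1 ∨ t = 11 ∨ t = -29 := by
  set D := t ^ 2 + 4 with hD
  have hD0 : 0 < D := by rw [hD]; positivity
  obtain ⟨p, hp⟩ : ∃ p, p = 3 * W ^ 2 / D := ⟨_, rfl⟩
  have hp0 : 0 ≤ p := hp ▸ by positivity
  have hpD : p * D = 3 * W ^ 2 := by rw [hp]; field_simp
  have hlin : 2 * W * (p + 9) + ((p - 3) ^ 2 + 6 * t * (p + 1)) = 0 := by
    apply mul_left_cancel₀ (pow_ne_zero 2 hD0.ne')
    linear_combination 3 * h + (p * D + 3 * W ^ 2 + 2 * W * D + 6 * (t - 1) * D) * hpD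
  obtain ⟨e, rfl⟩ : ∃ e, p = e + 3 := ⟨p - 3, by ring⟩
  have hG : 3 * (e ^ 2 + 6 * t * (e + 4)) ^ 2 = 4 * (e + 3) * (e + 12) ^ 2 * (t ^ 2 + 4) := by
    rw [← hD]
    linear_combination 3 * (e ^ 2 + 6 * t * (e + 4) - 2 * W * (e + 12)) * hlin
      - 4 * (e + 12) ^ 2 * hpD
  have he0 : e ≠ 0 := by rintro rfl; linarith
  have he12 : e + 12 ≠ 0 := by linarith
  obtain ⟨V, hV⟩ : ∃ V, V = -4 * e ^ 3 * t + 18 * (e + 4) * e ^ 2 := ⟨_, rfl⟩
  have hV2 : V ^ 2 = 4 * e ^ 3 * (e + 12) ^ 2 * (e + 3) * (3 * e - 16) := by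
    rw [hV]; linear_combination -4 * e ^ 3 * hG
  obtain ⟨Y, hY⟩ : ∃ Y, Y = 3 * V / (2 * e * (e + 12)) := ⟨_, rfl⟩
  have hE : Y ^ 2 = (3 * e) * (3 * e + 9) * (3 * e - 16) := by
    rw [hY]; field_simp; linear_combination 3 * hV2
  rcases rational_points hE with hX | hX | hX | hX | hX
  · exact absurd (by linarith) he0
  · obtain rfl : e = -3 := by linarith
    have : (t + 3/2) ^ 2 = 0 := by linear_combination hG / 108
    left; linarith [pow_eq_zero_iff two_ne_zero |>.mp this]
  · obtain rfl : e = 16/3 := by linarith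
    have : (t - 63/8) ^ 2 = 0 := by linear_combination (-(27/16384) : ℚ) * hG
    right; left; linarith [pow_eq_zero_iff two_ne_zero |>.mp this]
  · obtain rfl : e = 12 := by linarith
    have : (t - 1) * (t - 11) = 0 := by linear_combination (-(1/6912) : ℚ) * hG
    rcases mul_eq_zero.mp this with h | h
    · right; right; left; linarith
    · right; right; right; left; linarith
  · obtain rfl : e = -4/3 := by linarith
    have : (t + 29) * (t - 11) = 0 := by linear_combination (27/256 : ℚ) * hG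
    rcases mul_eq_zero.mp this with h | h
    · right; right; right; right; linarith
    · right; right; right; left; linarith

end Fermat.Agent.X15
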